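import Mathlib.NumberTheory.Rayleigh
import Mathlib.NumberTheory.Real.GoldenRatio
import Mathlib.Tactic

/-!
# Wythoff's game

The Beatty sequences of `φ` and `φ ^ 2` partition the positive integers, and the `k`th pair has
difference `k`; this makes the pairs the cold positions.
-/

set_option autoImplicit false

open Real
open scoped symmDiff

namespace FA.Wythoff

/-- The smaller heap of the `k`th cold position. -/
noncomputable def lo (k : ℕ) : ℕ := ⌊(k : ℝ) * goldenRatio⌋₊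

/-- The larger heap of the `k`th cold position. -/
noncomputable def hi (k : ℕ) : ℕ := ⌊(k : ℝ) * goldenRatio ^ 2⌋₊

theorem hi_eq (k : ℕ) : hi k = lo k + k := by
  have h := goldenRatio_pos
  rw [hi, lo, goldenRatio_sq, mul_add, mul_one, Nat.floor_add_natCast (by positivity)]

theorem lo_strictMono : StrictMono lo := strictMono_nat_of_lt_succ fun k => by
  have h := one_lt_goldenRatio
  have h1 : (lo k : ℝ) + 1 ≤ ((k + 1 : ℕ) : ℝ) * goldenRatio := by
    have := Nat.floor_le (show (0 : ℝ) ≤ (k : ℝ) * goldenRatio by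
      have := goldenRatio_pos
      positivity)
    rw [lo]
    push_cast
    linarith
  exact Nat.lt_of_succ_le (Nat.le_floor (by exact_mod_cast h1))

theorem hi_strictMono : StrictMono hi := fun k l h => by
  rw [hi_eq, hi_eq]
  have := lo_strictMono h
  omega

theorem lo_zero : lo 0 = 0 := by simp [lo]

theorem hi_zero : hi 0 = 0 := by simp [hi]

theorem partition {n : ℕ} (hn : 0 < n) :
    ((∃ k, 0 < k ∧ lo k = n) ∧ ¬∃ k, 0 < k ∧ hi k = n) ∨
      ((∃ k, 0 < k ∧ hi k = n) ∧ ¬∃ k, 0 < k ∧ lo k = n) := by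
  have hφ := one_lt_goldenRatio
  have hrs : goldenRatio.HolderConjugate (goldenRatio ^ 2) := by
    refine Real.holderConjugate_iff.2 ⟨hφ, ?_⟩
    have h := goldenRatio_pos
    have h2 := goldenRatio_sq
    generalize goldenRatio = r at h h2
    field_simp
    linarith
  have key := Set.ext_iff.1 (goldenRatio_irrational.beattySeq_symmDiff_beattySeq_pos hrs) (n : ℤ)
  rw [Set.mem_symmDiff] at key
  have hkey := key.2 (by simpa using hn)
  have conv : ∀ r : ℝ, 0 ≤ r →
      ((n : ℤ) ∈ {beattySeq r k | k > 0} ↔ ∃ k : ℕ, 0 < k ∧ ⌊(k : ℝ) * r⌋₊ = n) := by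
    intro r hr
    constructor
    · rintro ⟨k, hk, e⟩
      obtain ⟨k, rfl⟩ := Int.eq_ofNat_of_zero_le hk.le
      refine ⟨k, by omega, ?_⟩
      rw [beattySeq, Int.cast_natCast, ← Int.natCast_floor_eq_floor (by positivity)] at e
      exact_mod_cast e
    · rintro ⟨k, hk, e⟩
      refine ⟨k, by omega, ?_⟩
      rw [beattySeq, Int.cast_natCast, ← Int.natCast_floor_eq_floor (by positivity), e]
  rw [conv _ (zero_le_one.trans hφ.le), conv _ (sq_nonneg _)] at hkey
  exact hkey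

theorem lo_eq_hi {k l : ℕ} (h : lo k = hi l) : k = 0 ∧ l = 0 := by
  rcases Nat.eq_zero_or_pos l with rfl | hl
  · rw [hi_zero, ← lo_zero] at h
    exact ⟨lo_strictMono.injective h, rfl⟩
  · have hpos : 0 < hi l := hi_zero ▸ hi_strictMono hl
    have hk : 0 < k := Nat.pos_of_ne_zero fun e => by
      rw [e, lo_zero] at h
      omega
    rcases partition hpos with ⟨-, h'⟩ | ⟨-, h'⟩
    · exact absurd ⟨l, hl, rfl⟩ h'
    · exact absurd ⟨k, hk, h⟩ h'

theorem exists_index (n : ℕ) : ∃ k, lo k = n ∨ hi k = n := by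
  rcases Nat.eq_zero_or_pos n with rfl | hn
  · exact ⟨0, Or.inl lo_zero⟩
  · rcases partition hn with ⟨⟨k, -, e⟩, -⟩ | ⟨⟨k, -, e⟩, -⟩
    exacts [⟨k, Or.inl e⟩, ⟨k, Or.inr e⟩]

/-- The cold positions. -/
def cold : Set (ℕ × ℕ) := {p | ∃ k, p = (lo k, hi k) ∨ p = (hi k, lo k)}

/-- A move of Wythoff's game. -/
def Move (p q : ℕ × ℕ) : Prop :=
  ∃ t, 0 < t ∧ ((q.1 + t = p.1 ∧ q.2 = p.2) ∨ (q.1 = p.1 ∧ q.2 + t = p.2) ∨
    (q.1 + t = p.1 ∧ q.2 + t = p.2))

theorem move_swap {p q : ℕ × ℕ} (h : Move p q) : Move p.swap q.swap := by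
  obtain ⟨t, ht, h⟩ := h
  refine ⟨t, ht, ?_⟩
  simp only [Prod.fst_swap, Prod.snd_swap]
  tauto

theorem cold_swap {p : ℕ × ℕ} (h : p ∈ cold) : p.swap ∈ cold := by
  obtain ⟨k, rfl | rfl⟩ := h
  exacts [⟨k, Or.inr rfl⟩, ⟨k, Or.inl rfl⟩]

theorem cold_no_move {p q : ℕ × ℕ} (hp : p ∈ cold) (h : Move p q) : q ∉ cold := by
  intro hq
  obtain ⟨t, ht, h⟩ := h
  obtain ⟨k, hk⟩ := hp
  obtain ⟨l, hl⟩ := hq
  have hek := hi_eq k
  have hel := hi_eq l
  have k1 : lo k ≠ lo l ∨ k = l := (em _).symm.imp_right fun e => lo_strictMono.injective e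
  have k2 : hi k ≠ hi l ∨ k = l := (em _).symm.imp_right fun e => hi_strictMono.injective e
  have k3 : lo k ≠ hi l ∨ (k = 0 ∧ l = 0) := (em _).symm.imp_right lo_eq_hi
  have k4 : hi k ≠ lo l ∨ (k = 0 ∧ l = 0) :=
    (em _).symm.imp_right fun e => (lo_eq_hi e.symm).symm
  have k5 : k ≠ l ∨ lo k = lo l := (em _).symm.imp_right (congrArg lo)
  have k6 : k ≠ 0 ∨ lo k = 0 := (em _).symm.imp_right fun e => by rw [e, lo_zero]
  have k7 : l ≠ 0 ∨ lo l = 0 := (em _).symm.imp_right fun e => by rw [e, lo_zero]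
  rcases hk with rfl | rfl <;> rcases hl with rfl | rfl <;> simp only at h <;> omega

theorem hot_move_aux {x y : ℕ} (hxy : x ≤ y) (h : (x, y) ∉ cold) :
    ∃ q ∈ cold, Move (x, y) q := by
  obtain ⟨k, hk | hk⟩ := exists_index x
  · rcases lt_trichotomy y (hi k) with hy | hy | hy
    · obtain ⟨d, rfl⟩ := Nat.exists_eq_add_of_le hxy
      have hd : d < k := by
        rw [hi_eq, hk] at hy
        omega
      refine ⟨(lo d, hi d), ⟨d, Or.inl rfl⟩, x - lo d, ?_, Or.inr (Or.inr ⟨?_, ?_⟩)⟩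
      all_goals
        have := lo_strictMono hd
        have := hi_eq d
        try simp only
        omega
    · exact absurd ⟨k, Or.inl (by rw [hy, hk])⟩ h
    · exact ⟨(lo k, hi k), ⟨k, Or.inl rfl⟩, y - hi k, by omega,
        Or.inr (Or.inl ⟨hk, by simp only; omega⟩)⟩
  · have hlk := hi_eq k
    rcases Nat.lt_or_ge (lo k) y with hy | hy
    · exact ⟨(hi k, lo k), ⟨k, Or.inr rfl⟩, y - lo k, by omega,
        Or.inr (Or.inl ⟨hk, by simp only; omega⟩)⟩
    · refine absurd ⟨k, Or.inr ?_⟩ h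
      rw [hk, Prod.mk.injEq]
      omega

theorem hot_move {p : ℕ × ℕ} (h : p ∉ cold) : ∃ q ∈ cold, Move p q := by
  rcases le_total p.1 p.2 with hle | hle
  · exact hot_move_aux hle h
  · obtain ⟨q, hq, hm⟩ := hot_move_aux (x := p.2) (y := p.1) hle fun hc => h (cold_swap hc)
    exact ⟨q.swap, cold_swap hq, move_swap hm⟩

theorem wythoff (S : Set (ℕ × ℕ)) :
    ((∀ p ∈ S, ∀ q, Move p q → q ∉ S) ∧ ∀ p, p ∉ S → ∃ q ∈ S, Move p q) ↔ S = cold := by
  refine ⟨fun ⟨h1, h2⟩ => Set.ext fun p => ?_, fun h => h ▸ ⟨fun p hp q hq => cold_no_move hp hq,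
    fun p hp => hot_move hp⟩⟩
  induction hn : p.1 + p.2 using Nat.strong_induction_on generalizing p with
  | _ n ih =>
    subst hn
    have hlt : ∀ q, Move p q → q.1 + q.2 < p.1 + p.2 := fun q ⟨t, ht, h⟩ => by omega
    constructor
    · intro hp
      by_contra hc
      obtain ⟨q, hq, hm⟩ := hot_move hc
      exact h1 p hp q hm ((ih _ (hlt q hm) q rfl).2 hq)
    · intro hp
      by_contra hc
      obtain ⟨q, hq, hm⟩ := h2 p hc
      exact cold_no_move hp hm ((ih _ (hlt q hm) q rfl).1 hq)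

end FA.Wythoff
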